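import Fermat.Agent.LevelMatch.Residual
import Fermat.Prelude.Def_WeierstrassCurve_Mlc1RowStatement
import Fermat.Prelude.Def_WeierstrassCurve_ConductorLevel
import Fermat.Prelude.Def_WeierstrassCurve_PeuRamifiee

/-!
# Modularity lifting at three and five: the statements of the packages

`TargetEntry` brings the level to a squarefree one. `TargetLowerAtP` removes `p` from the level when
the representation is peu ramifiée at `p`, `TargetLowerAway` removes a prime where
it is unramified and which is not congruent to one with scalar Frobenius, and `TargetLift` is the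
lifting theorem at a squarefree level from which no prime can be removed in these ways.
-/

set_option autoImplicit false

noncomputable section

namespace FLTAgent.ModLift

local notation "LL" => AlgebraicClosure ℚ
local notation "GG" => (AlgebraicClosure ℚ ≃ₐ[ℚ] AlgebraicClosure ℚ)

/-- `q` is congruent to one modulo `p` and its Frobenius elements act on the `p`-torsion by
scalars: such a prime is kept in the level with the twisted modules. -/
def IsScalarPrime (W : WeierstrassCurve ℤ) (hΔ : W.Δ ≠ 0) (p : ℕ) [Fact p.Prime] (q : ℕ) : Prop :=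
  p ∣ q - 1 ∧ ∀ V : ValuationSubring LL, V.LiesOverPrime q → ∀ φ : GG, V.IsFrobeniusAt φ q →
    ∃ a : ZMod p, (LevelMatch.resW W hΔ p).ρ φ = a • LinearMap.id

/-- The entry: residual modularity at a squarefree level. -/
def TargetEntry : Prop :=
  ∀ (p : ℕ), p = 3 ∨ p = 5 → ∀ (W : WeierstrassCurve ℤ), W.Δ ≠ 0 → W.IsSemistableModel →
    W.ModRepIsIrreducible p → ∀ (M₀ : ℕ) [NeZero M₀], W.IsResiduallyModularOfLevel p M₀ →
    ¬ p ^ 2 ∣ M₀ → (∀ q : ℕ, q.Prime → q ≠ p → ¬ q ^ 3 ∣ M₀) →
    ∃ M : ℕ, Squarefree M ∧ W.IsResiduallyModularOfLevel p M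

/-- The removal of `p` from a squarefree level. -/
def TargetLowerAtP : Prop :=
  ∀ (p : ℕ), p = 3 ∨ p = 5 → ∀ (W : WeierstrassCurve ℤ), W.Δ ≠ 0 → W.IsSemistableModel →
    W.ModRepIsIrreducible p → (W.map (Int.castRingHom ℚ)).IsPeuRamifieeAt p p →
    ∀ M : ℕ, Squarefree M → p ∣ M → W.IsResiduallyModularOfLevel p M →
      W.IsResiduallyModularOfLevel p (M / p)

/-- The removal from a squarefree level of a prime where the representation is unramified. -/
def TargetLowerAway : Prop :=
  ∀ (p : ℕ) [Fact p.Prime], p = 3 ∨ p = 5 →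
    ∀ (W : WeierstrassCurve ℤ) (hΔ : W.Δ ≠ 0), W.IsSemistableModel →
    W.ModRepIsIrreducible p → ∀ (M q : ℕ), Squarefree M → q.Prime → q ≠ p → q ∣ M →
      (LevelMatch.resW W hΔ p).IsUnramifiedAt q → ¬ IsScalarPrime W hΔ p q → W.IsResiduallyModularOfLevel p M →
      W.IsResiduallyModularOfLevel p (M / q)

/-- The lifting theorem: at a level whose primes are ramified or scalar, and prime to `p` when the
representation is peu ramifiée at `p`, the curve itself is modular at its conductor. -/
def TargetLift : Prop :=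
  ∀ (p : ℕ) [Fact p.Prime], p = 3 ∨ p = 5 →
    ∀ (W : WeierstrassCurve ℤ) (hΔ : W.Δ ≠ 0), W.IsSemistableModel →
    W.ModRepIsIrreducible p → ∀ M : ℕ, Squarefree M → W.IsResiduallyModularOfLevel p M →
      (p ∣ M → ¬ (W.map (Int.castRingHom ℚ)).IsPeuRamifieeAt p p) →
      (∀ q : ℕ, q.Prime → q ∣ M → q ≠ p →
        ¬ (LevelMatch.resW W hΔ p).IsUnramifiedAt q ∨ IsScalarPrime W hΔ p q) →
      W.IsModularModelOfLevel W.conductorLevel

end FLTAgent.ModLift
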