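import Fermat.Agent.ModLift.Interface

/-!
# Modularity lifting at three and five: assembly

Remove `p` and the removable primes from a squarefree level and apply the lifting theorem.
-/

set_option autoImplicit false

noncomputable section

namespace FLTAgent.ModLift

/-- The statement of the row from the four packages. -/
theorem exact_conductor_level (hentry : TargetEntry) (hatp : TargetLowerAtP)
    (haway : TargetLowerAway) (hlift : TargetLift) (p : ℕ) (hp : p = 3 ∨ p = 5)
    (W : WeierstrassCurve ℤ) (hΔ : W.Δ ≠ 0) (hW : W.IsSemistableModel)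
    (hirr : W.ModRepIsIrreducible p) (M₀ : ℕ) [NeZero M₀]
    (hres₀ : W.IsResiduallyModularOfLevel p M₀) (hM₀ : ¬ p ^ 2 ∣ M₀)
    (hM₀3 : ∀ q : ℕ, q.Prime → q ≠ p → ¬ q ^ 3 ∣ M₀) :
    Mlc1IsModularModelOfExactConductorLevel W := by
  classical
  haveI : Fact p.Prime := ⟨by rcases hp with rfl | rfl <;> norm_num⟩
  obtain ⟨M₁, hM₁, hres₁⟩ := hentry p hp W hΔ hW hirr M₀ hres₀ hM₀ hM₀3
  have hex : ∃ M, Squarefree M ∧ W.IsResiduallyModularOfLevel p M := ⟨M₁, hM₁, hres₁⟩
  set M := Nat.find hex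
  obtain ⟨hsq, hres⟩ := Nat.find_spec hex
  have hpos : 0 < M := Nat.pos_of_ne_zero hsq.ne_zero
  have hmin : ∀ q : ℕ, q.Prime → q ∣ M → ¬ W.IsResiduallyModularOfLevel p (M / q) :=
    fun q hq hqM h => Nat.find_min hex (Nat.div_lt_self hpos hq.one_lt)
      ⟨hsq.squarefree_of_dvd (Nat.div_dvd_of_dvd hqM), h⟩
  refine ⟨W.conductorLevel, W.conductorLevel_pos, W.squarefree_conductorLevel,
    fun q hq => W.prime_dvd_conductorLevel_iff hΔ hq, ?_⟩
  refine hlift p hp W hΔ hW hirr M hsq hres (fun hpM hpeu => ?_) fun q hq hqM hqp => ?_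
  · exact hmin p Fact.out hpM (hatp p hp W hΔ hW hirr hpeu M hsq hpM hres)
  · by_contra h
    push Not at h
    exact hmin q hq hqM (haway p hp W hΔ hW hirr M q hsq hq hqp hqM h.1 h.2 hres)

end FLTAgent.ModLift
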