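import Fermat.Agent.ModLift.Assembly
import Fermat.Agent.Entry.QOne.Entry
import Fermat.Agent.ModLift.LowerAway.Target
import Fermat.Agent.ModLift.AtP.Target
import Fermat.Agent.ModLift.Lift.Final.Main
import Fermat.Agent.ModLift.Lift.Ctx.Main
import Fermat.Agent.ModLift.Lift.Tower.Mats.Main
import Fermat.Agent.ModLift.Lift.Tower.Join.Main
import Fermat.Agent.ModLift.Lift.Local.Tame
import Fermat.Agent.ModLift.Lift.Local.Choice
import Fermat.Agent.ModLift.Lift.Local.UnitRoot
import Fermat.Agent.ModLift.Lift.Bound.Main
import Fermat.Agent.ModLift.WPoint.Main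
import Fermat.Agent.ModLift.Patch.Limit
import Fermat.Agent.ModLift.Patch.Plane
import Fermat.Agent.ModLift.Patch.Component

/-!
# The lifting statement from the new part
-/

set_option autoImplicit false

noncomputable section

namespace FLTAgent.ModLift

/-- The lifting theorem from the new part. -/
theorem targetLift_of_newPart (hnew : TargetNewPart) : TargetLift :=
  targetLift_of targetCtx targetCurvePoint targetModularOfChar (targetMats_of hnew) targetJoin
    targetTameRel targetCharChoice targetAuxUnramified targetUnitRoot targetPatternBound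
    Patch.targetLimit Patch.targetPlane Patch.targetSpecial

/-- The statement of the row from the new part. -/
theorem exact_conductor_level_of_newPart (hnew : TargetNewPart)
    (p : ℕ) (hp : p = 3 ∨ p = 5) (W : WeierstrassCurve ℤ) (hΔ : W.Δ ≠ 0)
    (hW : W.IsSemistableModel) (hirr : W.ModRepIsIrreducible p) (M₀ : ℕ) [NeZero M₀]
    (hres₀ : W.IsResiduallyModularOfLevel p M₀) (hM₀ : ¬ p ^ 2 ∣ M₀)
    (hM₀3 : ∀ q : ℕ, q.Prime → q ≠ p → ¬ q ^ 3 ∣ M₀) :
    Mlc1IsModularModelOfExactConductorLevel W :=
  exact_conductor_level Entry.targetEntry targetLowerAtP targetLowerAway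
    (targetLift_of_newPart hnew) p hp W hΔ hW hirr M₀ hres₀ hM₀ hM₀3

end FLTAgent.ModLift
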